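import Fermat.Agent.S55.GC.Spec
import Fermat.Agent.S55.H414.CycloMain
import Fermat.Agent.S55.PT.LevelsH724

/-!
# S55 / layer GC, leaf GC-GOOD (helper841): good levels are cofinal

`good p S : GoodSpec p S`.  For a level `U` pick a normal level `U₀ ≤ U` and put
`U_n := U₀ ⊓ G_{ℚ(ζ_{p^n})}`.  For every `v ∈ S` the local `p`-power cyclotomic degree is
unbounded (helper414), so some element of the local group at `v` lies in `U_n` and not in
`U_{n+1}` (`n ≥ 1`); raising to the `p`-th power moves this from `n` to `n + 1` (`(ℤ/p^m)ˣ` is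
cyclic, `p` odd), so a common `A` works for all `v ∈ S`, and `(U_A, U_{A+1})` is a good pair.
-/

set_option autoImplicit false
set_option linter.style.haveILetI false

noncomputable section

namespace Fermat.Agent.S55.GC.H841

open Fermat.Agent.S55.PT Fermat.Agent.S55.Inv Fermat.Agent.S55.H414 groupCohomology ExtCitation

/-- In a finite cyclic group a subgroup of order `n` contains every element killed by `n`. -/
theorem mem_of_pow_eq_one_of_card_eq {Z : Type*} [Group Z] [Finite Z] [IsCyclic Z]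
    (P : Subgroup Z) {n : ℕ} (hn : 0 < n) (hP : Nat.card P = n) {x : Z} (hx : x ^ n = 1) :
    x ∈ P := by
  classical
  haveI : Fintype Z := Fintype.ofFinite Z
  have hle : (Finset.univ.filter fun a : Z => a ^ n = 1).card ≤ n :=
    IsCyclic.card_pow_eq_one_le hn
  have hsub : (Finset.univ.filter fun a : Z => a ∈ P) ⊆
      (Finset.univ.filter fun a : Z => a ^ n = 1) := by
    intro a ha
    rw [Finset.mem_filter] at ha ⊢
    refine ⟨Finset.mem_univ _, ?_⟩
    have h1 : (⟨a, ha.2⟩ : P) ^ Nat.card P = 1 := pow_card_eq_one'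
    rw [hP] at h1
    exact congrArg Subtype.val h1
  have hcard : (Finset.univ.filter fun a : Z => a ∈ P).card = n := by
    rw [← hP, Nat.card_eq_fintype_card, Fintype.card_subtype]
  have heq := Finset.eq_of_subset_of_card_le hsub (by rw [hcard]; exact hle)
  have hx' : x ∈ (Finset.univ.filter fun a : Z => a ^ n = 1) := by
    rw [Finset.mem_filter]; exact ⟨Finset.mem_univ _, hx⟩
  rw [← heq, Finset.mem_filter] at hx'
  exact hx'.2

variable (p : ℕ) [Fact p.Prime]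

/-- `G_{ℚ(ζ_{p^n})}`. -/
def cyc (n : ℕ) : Subgroup GQ := (cycloLevel (p ^ n)).fixingSubgroup

theorem cyc_eq_ker (n : ℕ) : cyc p n = (cycloPow (p ^ n)).ker := (ker_cycloPow (p ^ n)).symm

instance cyc_normal (n : ℕ) : (cyc p n).Normal := by
  rw [cyc_eq_ker]; exact MonoidHom.normal_ker _

theorem cyc_anti {m n : ℕ} (h : m ≤ n) : cyc p n ≤ cyc p m :=
  IntermediateField.fixingSubgroup_antitone (cycloLevel_mono p h)

theorem cyc_index (n : ℕ) : (cyc p (n + 1)).index = (p - 1) * p ^ n := by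
  rw [← Subgroup.relIndex_top_right]
  exact relIndex_fixingSubgroup_cycloLevel_self p n ⊤ le_top

theorem cyc_relIndex (n : ℕ) (hn : 1 ≤ n) : (cyc p (n + 1)).relIndex (cyc p n) = p := by
  have hp : p.Prime := Fact.out
  obtain ⟨m, rfl⟩ : ∃ m, n = m + 1 := ⟨n - 1, by omega⟩
  have h := Subgroup.relIndex_mul_index (cyc_anti p (Nat.le_succ (m + 1)))
  rw [cyc_index, cyc_index] at h
  have hpos : 0 < (p - 1) * p ^ m := Nat.mul_pos (Nat.sub_pos_of_lt hp.one_lt) (pow_pos hp.pos _)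
  apply Nat.eq_of_mul_eq_mul_right hpos
  rw [h, pow_succ]
  ring

theorem card_map_cyc (n : ℕ) (hn : 1 ≤ n) :
    Nat.card ((cyc p n).map (cycloPow (p ^ (n + 1)))) = p := by
  rw [← relIndex_fixingSubgroup_cycloLevel]
  exact cyc_relIndex p n hn

/-- **The `p`-th power step.**  For `p` odd and `n ≥ 1`, the `p`-th power of an element of
`G_{ℚ(ζ_{p^n})}` which is not in `G_{ℚ(ζ_{p^(n+1)})}` lies in `G_{ℚ(ζ_{p^(n+1)})}` and not in
`G_{ℚ(ζ_{p^(n+2)})}`. -/
theorem pow_step (hp2 : p ≠ 2) (n : ℕ) (hn : 1 ≤ n) {σ : GQ} (h1 : σ ∈ cyc p n)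
    (h2 : σ ∉ cyc p (n + 1)) : σ ^ p ∈ cyc p (n + 1) ∧ σ ^ p ∉ cyc p (n + 2) := by
  have hp : p.Prime := Fact.out
  constructor
  · rw [cyc_eq_ker, MonoidHom.mem_ker, map_pow]
    have hmem : cycloPow (p ^ (n + 1)) σ ∈ (cyc p n).map (cycloPow (p ^ (n + 1))) :=
      Subgroup.mem_map_of_mem _ h1
    have h := pow_card_eq_one' (G := ((cyc p n).map (cycloPow (p ^ (n + 1)))))
      (x := ⟨_, hmem⟩)
    rw [card_map_cyc p n hn] at h
    exact congrArg Subtype.val h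
  · intro h3
    rw [cyc_eq_ker, MonoidHom.mem_ker, map_pow] at h3
    haveI : IsCyclic (ZMod (p ^ (n + 2)))ˣ := ZMod.isCyclic_units_of_prime_pow p hp hp2 (n + 2)
    have hx : cycloPow (p ^ (n + 2)) σ ∈ (cyc p (n + 1)).map (cycloPow (p ^ (n + 2))) :=
      mem_of_pow_eq_one_of_card_eq _ hp.pos (card_map_cyc p (n + 1) (by omega)) h3
    obtain ⟨τ, hτ, hτσ⟩ := Subgroup.mem_map.1 hx
    apply h2
    have hker : τ⁻¹ * σ ∈ cyc p (n + 2) := by
      rw [cyc_eq_ker, MonoidHom.mem_ker, map_mul, map_inv, hτσ, inv_mul_cancel]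
    have := (cyc p (n + 1)).mul_mem hτ (cyc_anti p (Nat.le_succ (n + 1)) hker)
    rwa [mul_inv_cancel_left] at this

/-- Start: for a subgroup `U₀` of finite index, some element of the local group at `q` lies in
`U₀ ∩ G_{ℚ(ζ_{p^n})}` and not in `G_{ℚ(ζ_{p^(n+1)})}`, for some `n ≥ 1`. -/
theorem exists_start (U₀ : Subgroup GQ) [U₀.FiniteIndex] (q : Nat.Primes) :
    ∃ n, 1 ≤ n ∧ ∃ σ : Gl q, rl q σ ∈ U₀ ∧ rl q σ ∈ cyc p n ∧ rl q σ ∉ cyc p (n + 1) := by
  have hp : p.Prime := Fact.out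
  by_contra hcon
  push Not at hcon
  have hall : ∀ n, 1 ≤ n → ∀ σ : Gl q, rl q σ ∈ U₀ → rl q σ ∈ cyc p 1 → rl q σ ∈ cyc p n := by
    intro n hn
    induction n, hn using Nat.le_induction with
    | base => exact fun σ _ h => h
    | succ n hn ih => exact fun σ h0 h1 => hcon n hn σ h0 (ih σ h0 h1)
  haveI : (cyc p 1).FiniteIndex := by
    haveI : FiniteDimensional ℚ (cycloLevel (p ^ 1)) := inferInstance
    exact Fermat.Agent.S55.PT.H724.fixingSubgroup_finiteIndex (cycloLevel (p ^ 1))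
  haveI : (U₀ ⊓ cyc p 1).FiniteIndex := inferInstance
  set m : ℕ := (U₀ ⊓ cyc p 1).relIndex (rl q).range with hm
  have hm0 : m ≠ 0 := by
    haveI : (U₀ ⊓ cyc p 1).IsFiniteRelIndex (rl q).range :=
      Subgroup.isFiniteRelIndex_of_finiteIndex
    exact Subgroup.relIndex_ne_zero
  obtain ⟨n₀, hn₀⟩ := exists_forall_pow_dvd_relIndex_primeLocal p q m
  have hdvd := hn₀ (max n₀ 1) (le_max_left _ _)
  have hle : (U₀ ⊓ cyc p 1) ⊓ (rl q).range ≤ cyc p (max n₀ 1) := by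
    rintro x ⟨⟨hx0, hx1⟩, σ, rfl⟩
    exact hall _ (le_max_right _ _) σ hx0 hx1
  have h2 := Subgroup.relIndex_dvd_of_le_left (rl q).range hle
  rw [Subgroup.inf_relIndex_right] at h2
  have h3 : p ^ m ∣ m := hdvd.trans h2
  have h4 : p ^ m ≤ m := Nat.le_of_dvd (Nat.pos_of_ne_zero hm0) h3
  have h5 : m < p ^ m := Nat.lt_pow_self hp.one_lt
  omega

/-- Propagation: the property of `exists_start` for all large `n`. -/
theorem exists_forall_ge (hp2 : p ≠ 2) (U₀ : Subgroup GQ) [U₀.FiniteIndex] (q : Nat.Primes) :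
    ∃ n₀, ∀ n, n₀ ≤ n → 1 ≤ n ∧
      ∃ σ : Gl q, rl q σ ∈ U₀ ∧ rl q σ ∈ cyc p n ∧ rl q σ ∉ cyc p (n + 1) := by
  obtain ⟨n₀, hn₀, hσ⟩ := exists_start p U₀ q
  refine ⟨n₀, fun n hn => ?_⟩
  induction n, hn using Nat.le_induction with
  | base => exact ⟨hn₀, hσ⟩
  | succ n hn ih =>
    obtain ⟨hn1, σ, h0, h1, h2⟩ := ih
    refine ⟨by omega, σ ^ p, ?_, ?_, ?_⟩
    · rw [map_pow]; exact U₀.pow_mem h0 p
    · rw [map_pow]; exact (pow_step p hp2 n hn1 h1 h2).1
    · rw [map_pow]; exact (pow_step p hp2 n hn1 h1 h2).2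

/-- Uniform version over a finite set of primes. -/
theorem exists_uniform (hp2 : p ≠ 2) (U₀ : Subgroup GQ) [U₀.FiniteIndex]
    (S : Finset Nat.Primes) :
    ∃ A, 1 ≤ A ∧ ∀ q ∈ S,
      ∃ σ : Gl q, rl q σ ∈ U₀ ∧ rl q σ ∈ cyc p A ∧ rl q σ ∉ cyc p (A + 1) := by
  classical
  choose n₀ hn₀ using fun q : Nat.Primes => exists_forall_ge p hp2 U₀ q
  refine ⟨S.sup n₀ + 1, by omega, fun q hq => ?_⟩
  exact (hn₀ q (S.sup n₀ + 1) ((Finset.le_sup hq).trans (Nat.le_succ _))).2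

/-- Elements of `G_{ℚ(ζ_{p^n})}`, `n ≥ 1`, act trivially on `μ_p`. -/
theorem mu_eq_one_of_mem_cyc {n : ℕ} (hn : 1 ≤ n) {s : GQ} (hs : s ∈ cyc p n) :
    (mu p).ρ s = 1 := by
  have hs1 : s ∈ cyc p 1 := cyc_anti p hn hs
  have hχ : cycloChar p s = 1 := by
    apply Fermat.Agent.S55.Bridge.cycloChar_eq_one_of_fixes
    intro t ht
    have hz := zetaBar_spec (p ^ 1)
    have htp : (t : AlgebraicClosure ℚ) ^ (p ^ 1) = 1 := by
      rw [pow_one]
      have h1 : t ^ p = 1 := (mem_rootsOfUnity p t).1 ht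
      have h2 := congrArg (fun x : (AlgebraicClosure ℚ)ˣ => (x : AlgebraicClosure ℚ)) h1
      simpa using h2
    obtain ⟨i, -, hi⟩ := hz.eq_pow_of_pow_eq_one htp
    have hfix : s (zetaBar (p ^ 1)) = zetaBar (p ^ 1) :=
      (mem_fixingSubgroup_cycloLevel_iff _ s).1 hs1
    rw [← hi, map_pow, hfix]
  apply LinearMap.ext
  intro c
  have h : (mu p).ρ s c = ((cycloChar p s : (ZMod p)ˣ) : ZMod p) * c := by
    show ((Representation.trivial (ZMod p) GQ (ZMod p)).twist (cycloChar p)) s c = _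
    simp [Representation.twist_apply_apply]
  rw [h, hχ]
  simp

/-- **GC-GOOD.**  Good levels are cofinal. -/
theorem good (S : Finset Nat.Primes) : GoodSpec p S := by
  intro hp2 hpS U hU
  have hp : p.Prime := Fact.out
  obtain ⟨U₀, hU₀, hU₀U, hU₀n⟩ := Fermat.Agent.S55.PT.H724.globalNormalCofinal S U hU
  haveI : U₀.FiniteIndex := Fermat.Agent.S55.PT.H724.globalFiniteIndex S U₀ hU₀
  obtain ⟨A, hA, hns⟩ := exists_uniform p hp2 U₀ S
  obtain ⟨F₀, hF₀, rfl⟩ := hU₀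
  have hmem : ∀ n, F₀.fixingSubgroup ⊓ cyc p n ∈ (globalLevels S).levels := fun n =>
    ⟨F₀ ⊔ cycloLevel (p ^ n), hF₀.sup (isUnramifiedOutside_cycloLevel p n S hpS), by
      rw [IntermediateField.fixingSubgroup_sup]; rfl⟩
  have hnonsplit : ∀ v : ↥S, ∃ σ : Gl v.1,
      rl v.1 σ ∈ F₀.fixingSubgroup ⊓ cyc p A ∧ rl v.1 σ ∉ F₀.fixingSubgroup ⊓ cyc p (A + 1) := by
    intro v
    obtain ⟨σ, h0, h1, h2⟩ := hns v.1 v.2
    exact ⟨σ, ⟨h0, h1⟩, fun h => h2 h.2⟩
  refine ⟨F₀.fixingSubgroup ⊓ cyc p A, F₀.fixingSubgroup ⊓ cyc p (A + 1),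
    inf_le_left.trans hU₀U, ?_⟩
  refine
    { mem := hmem A
      mem₁ := hmem (A + 1)
      normal := Subgroup.normal_inf_normal _ _
      normal₁ := Subgroup.normal_inf_normal _ _
      le := inf_le_inf_left _ (cyc_anti p (Nat.le_succ A))
      index := ?_
      mu := fun s hs => mu_eq_one_of_mem_cyc p hA hs.2
      nonsplit := hnonsplit }
  -- the index
  have heq : F₀.fixingSubgroup ⊓ cyc p (A + 1) =
      cyc p (A + 1) ⊓ (F₀.fixingSubgroup ⊓ cyc p A) := by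
    apply le_antisymm
    · exact le_inf inf_le_right (inf_le_inf_left _ (cyc_anti p (Nat.le_succ A)))
    · exact le_inf (inf_le_right.trans inf_le_left) inf_le_left
  rw [heq, Subgroup.inf_relIndex_right]
  have hdvd : (cyc p (A + 1)).relIndex (F₀.fixingSubgroup ⊓ cyc p A) ∣ p := by
    have h1 : (cyc p (A + 1)).relIndex (F₀.fixingSubgroup ⊓ cyc p A) =
        Nat.card ((F₀.fixingSubgroup ⊓ cyc p A).map (cycloPow (p ^ (A + 1)))) :=
      relIndex_fixingSubgroup_cycloLevel _ _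
    rw [h1]
    have h2 := Subgroup.card_dvd_of_le (Subgroup.map_mono (f := cycloPow (p ^ (A + 1)))
      (inf_le_right : F₀.fixingSubgroup ⊓ cyc p A ≤ cyc p A))
    rwa [card_map_cyc p A hA] at h2
  rcases (Nat.dvd_prime hp).1 hdvd with h | h
  · exfalso
    rw [Subgroup.relIndex_eq_one] at h
    obtain ⟨σ, h0, h1⟩ := hnonsplit ⟨pPrime p, hpS⟩
    exact h1 ⟨h0.1, h h0⟩
  · exact h

end Fermat.Agent.S55.GC.H841

end
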