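import Fermat.Agent.S55.GC.Spec

/-!
# S55 / layer GC, leaf GC-MONO (helper583, subtask 686)

`H583.mono p S : MonoSpec p S` — the cokernel bound `GlobCokerAt` descends from a smaller normal
level `U' ≤ U` to `U`.

Proof.  `π = indLE : Ind_{U'} μ → Ind_U μ` is equivariant and onto; `Π = pushLoc2 π` commutes with
`loc2` (`PT.loc2_pushH2`) and is onto by `PT.Surj2LocSpec` (both modules are finite-dimensional
and fixed by the level `U'`).  Given `f'` with `ker f' ≤ range loc2'`:
* if `f'` vanishes on `ker Π` it factors as `f ∘ Π`, and `ker f = Π (ker f') ≤ range loc2`;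
* otherwise `Π (ker f') = ⊤` and `f = 0` works.
The linear algebra is `exists_functional_of_surjective583` (Mathlib only).
-/

set_option autoImplicit false
set_option linter.style.haveILetI false

noncomputable section

namespace Fermat.Agent.S55.GC.H583

open Fermat.Agent.S55.PT Fermat.Agent.S55.Inv groupCohomology ExtCitation

/-! ### Linear algebra -/

/-- If `Π : X' → X` is onto, `Π ∘ l' = l ∘ Π₀` and the kernel of a functional `f'` on `X'` lies
in the range of `l'`, then some functional on `X` has its kernel in the range of `l`. -/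
theorem exists_functional_of_surjective583 {k X' X Y' Y : Type*} [Field k]
    [AddCommGroup X'] [Module k X'] [AddCommGroup X] [Module k X]
    [AddCommGroup Y'] [Module k Y'] [AddCommGroup Y] [Module k Y]
    (Pi : X' →ₗ[k] X) (hPi : Function.Surjective Pi)
    (l' : Y' →ₗ[k] X') (l : Y →ₗ[k] X) (Pi₀ : Y' →ₗ[k] Y)
    (hcomm : ∀ y, l (Pi₀ y) = Pi (l' y))
    (f' : X' →ₗ[k] k) (hf' : LinearMap.ker f' ≤ LinearMap.range l') :
    ∃ f : X →ₗ[k] k, LinearMap.ker f ≤ LinearMap.range l := by
  have key : ∀ x' : X', f' x' = 0 → Pi x' ∈ LinearMap.range l := by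
    intro x' hx'
    obtain ⟨y, hy⟩ := hf' (LinearMap.mem_ker.2 hx')
    exact ⟨Pi₀ y, by rw [hcomm, hy]⟩
  by_cases h : ∀ z : X', Pi z = 0 → f' z = 0
  · -- `f'` factors through `Π`
    have hker : LinearMap.ker Pi ≤ LinearMap.ker f' := fun z hz =>
      LinearMap.mem_ker.2 (h z (LinearMap.mem_ker.1 hz))
    refine ⟨((LinearMap.ker Pi).liftQ f' hker) ∘ₗ
      (Pi.quotKerEquivOfSurjective hPi).symm.toLinearMap, ?_⟩
    intro x hx
    obtain ⟨x', rfl⟩ := hPi x
    apply key
    have h1 : (Pi.quotKerEquivOfSurjective hPi).symm (Pi x') =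
        Submodule.Quotient.mk x' := by
      rw [LinearEquiv.symm_apply_eq]
      rfl
    have h2 := LinearMap.mem_ker.1 hx
    rw [LinearMap.comp_apply, LinearEquiv.coe_coe, h1] at h2
    exact h2
  · -- `Π (ker f') = ⊤`
    obtain ⟨z, hz⟩ := not_forall.1 h
    obtain ⟨hz, hfz⟩ := Classical.not_imp.1 hz
    refine ⟨0, ?_⟩
    intro x _
    obtain ⟨x', rfl⟩ := hPi x
    have h1 : Pi (x' - (f' x' / f' z) • z) = Pi x' := by
      rw [map_sub, map_smul, hz, smul_zero, sub_zero]
    rw [← h1]
    apply key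
    rw [map_sub, map_smul, smul_eq_mul, div_mul_cancel₀ _ hfz, sub_self]

/-! ### The induced modules -/

section Ind

variable {k : Type} [Field k] {G : Type} [Group G]

/-- A normal subgroup contained in `U` acts trivially on `G ⧸ U`. -/
theorem smul_coset_eq583 {U U' : Subgroup G} (hn : U'.Normal) (hle : U' ≤ U) {s : G}
    (hs : s ∈ U') (x : G ⧸ U) : s • x = x := by
  induction x using QuotientGroup.induction_on with
  | H g =>
    show ((s * g : G) : G ⧸ U) = (g : G ⧸ U)
    rw [eq_comm, QuotientGroup.eq]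
    have h1 : g⁻¹ * s * g⁻¹⁻¹ ∈ U' := hn.conj_mem s hs g⁻¹
    rw [inv_inv] at h1
    have h2 : g⁻¹ * (s * g) = g⁻¹ * s * g := by group
    rw [h2]
    exact hle h1

/-- A normal subgroup `U' ≤ U` acting trivially on `M` acts trivially on `Ind_U M`. -/
theorem indRep_ρ_eq583 {U U' : Subgroup G} (hn : U'.Normal) (hle : U' ≤ U)
    (M : Rep.{0, 0, 0} k G) (hM : ∀ s ∈ U', M.ρ s = 1) {s : G} (hs : s ∈ U')
    (a : indRep U M) : (indRep U M).ρ s a = a := by
  have h : indAct U M s = LinearMap.id := by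
    apply Finsupp.lhom_ext
    intro x m
    rw [indAct_single, smul_coset_eq583 hn hle hs x, hM s hs, LinearMap.id_apply]
    rfl
  exact LinearMap.congr_fun h a

theorem isUSmooth_indRep583 (L : LevelSys G) {U U' : Subgroup G} (hU' : U' ∈ L.levels)
    (hn : U'.Normal) (hle : U' ≤ U) (M : Rep.{0, 0, 0} k G) (hM : ∀ s ∈ U', M.ρ s = 1) :
    L.IsUSmooth (indRep U M) :=
  ⟨U', hU', fun _ hs a => indRep_ρ_eq583 hn hle M hM hs a⟩

theorem indLE_surjective583 {U V : Subgroup G} (M : Rep.{0, 0, 0} k G) (h : U ≤ V) :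
    Function.Surjective (indLE M h) := by
  intro b
  induction b using Finsupp.induction_linear with
  | zero => exact ⟨0, map_zero _⟩
  | add b₁ b₂ h₁ h₂ =>
    obtain ⟨a₁, rfl⟩ := h₁
    obtain ⟨a₂, rfl⟩ := h₂
    exact ⟨a₁ + a₂, map_add _ _ _⟩
  | single x m =>
    induction x using QuotientGroup.induction_on with
    | H g =>
      refine ⟨Finsupp.single ((g : G) : G ⧸ U) m, ?_⟩
      rw [indLE_single]
      rfl

end Ind

/-! ### GC-MONO -/

variable (p : ℕ) [Fact p.Prime] (S : Finset Nat.Primes)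


theorem fd583 (U' : Subgroup GQ) [Finite (GQ ⧸ U')] :
    FiniteDimensional (ZMod p) (indRep U' (mu p)) := by
  show FiniteDimensional (ZMod p) ((GQ ⧸ U') →₀ ZMod p)
  infer_instance

theorem pushLoc2_surjective583 (h4 : Surj2LocSpec p S) {U U' : Subgroup GQ}
    (hU' : U' ∈ (globalLevels S).levels) (hU'n : U'.Normal) (hle : U' ≤ U)
    (hμ' : ∀ s ∈ U', (mu p).ρ s = 1)
    (hπ : IsEquivariant (A := indRep U' (mu p)) (B := indRep U (mu p)) (indLE (mu p) hle))
    (v : ↥S) :
    Function.Surjective (pushH2 (A := Rep.res (rl v.1) (indRep U' (mu p)))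
          (B := Rep.res (rl v.1) (indRep U (mu p))) (indLE (mu p) hle) (hπ.res (rl v.1))
          (localLevels v.1)) := by
  have hπs : Function.Surjective (indLE (mu p) hle) := indLE_surjective583 (mu p) hle
  have hsm' : (globalLevels S).IsUSmooth (indRep U' (mu p)) :=
    isUSmooth_indRep583 (globalLevels S) hU' hU'n le_rfl (mu p) hμ'
  have hsm : (globalLevels S).IsUSmooth (indRep U (mu p)) :=
    isUSmooth_indRep583 (globalLevels S) hU' hU'n hle (mu p) hμ'
  haveI : U'.FiniteIndex := PT.H723.globalLevels_finiteIndex S U' hU'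
  haveI : Finite (GQ ⧸ U') := Subgroup.finite_quotient_of_finiteIndex
  have hfd : FiniteDimensional (ZMod p) (indRep U' (mu p)) := fd583 p U'
  exact h4 v.1 v.2 (Rep.res (rl v.1) (indRep U' (mu p)))
        (Rep.res (rl v.1) (indRep U (mu p))) (indLE (mu p) hle) (hπ.res (rl v.1)) hfd
        (hsm'.res (hrl S v)) (hsm.res (hrl S v)) hπs


theorem comm583a {U U' : Subgroup GQ} (hle : U' ≤ U)
    (hπ : IsEquivariant (A := indRep U' (mu p)) (B := indRep U (mu p)) (indLE (mu p) hle))
    (y : (globalLevels S).H2 (indRep U' (mu p))) (v : ↥S) :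
      resH2 (hrl S v) (indRep U (mu p)) (pushH2 (indLE (mu p) hle) hπ (globalLevels S) y) =
        pushH2 (A := Rep.res (rl v.1) (indRep U' (mu p)))
          (B := Rep.res (rl v.1) (indRep U (mu p))) (indLE (mu p) hle) (hπ.res (rl v.1))
          (localLevels v.1) (resH2 (hrl S v) (indRep U' (mu p)) y) := by
  exact resH2_pushH2 (A := indRep U' (mu p)) (B := indRep U (mu p)) (L := globalLevels S)
    (s := rl v.1) (L' := localLevels v.1) (indLE (mu p) hle) hπ (hrl S v) y


theorem comm583 {U U' : Subgroup GQ} (hle : U' ≤ U)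
    (hπ : IsEquivariant (A := indRep U' (mu p)) (B := indRep U (mu p)) (indLE (mu p) hle))
    (y : (globalLevels S).H2 (indRep U' (mu p))) :
      loc2 (hrl S) (indRep U (mu p)) (pushH2 (indLE (mu p) hle) hπ (globalLevels S) y) =
        pushLoc2 (Lv := fun v : ↥S => localLevels v.1) (r := fun v : ↥S => rl v.1)
          (A := indRep U' (mu p)) (B := indRep U (mu p)) (indLE (mu p) hle) hπ
          (loc2 (hrl S) (indRep U' (mu p)) y) := by
  funext v
  rw [loc2_apply, pushLoc2_apply, loc2_apply]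
  exact comm583a p S hle hπ y v


/-- **GC-MONO.** -/
theorem mono : MonoSpec p S := by
  intro h4 U hU U' hU' hUn hU'n hle hμ hcok
  obtain ⟨f', hf'⟩ := hcok
  have hμ' : ∀ s ∈ U', (mu p).ρ s = 1 := fun s hs => hμ s (hle hs)
  have hπ : IsEquivariant (A := indRep U' (mu p)) (B := indRep U (mu p)) (indLE (mu p) hle) :=
    indLE_equivariant U' (mu p) hle
  have hPi : Function.Surjective
      (pushLoc2 (Lv := fun v : ↥S => localLevels v.1) (r := fun v : ↥S => rl v.1)
        (A := indRep U' (mu p)) (B := indRep U (mu p)) (indLE (mu p) hle) hπ) := by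
    intro x
    choose y hy using fun v : ↥S => pushLoc2_surjective583 p S h4 hU' hU'n hle hμ' hπ v (x v)
    exact ⟨y, funext fun v => hy v⟩
  obtain ⟨f, hf⟩ := exists_functional_of_surjective583
    (pushLoc2 (Lv := fun v : ↥S => localLevels v.1) (r := fun v : ↥S => rl v.1)
      (A := indRep U' (mu p)) (B := indRep U (mu p)) (indLE (mu p) hle) hπ) hPi
    (loc2 (hrl S) (indRep U' (mu p))) (loc2 (hrl S) (indRep U (mu p)))
    (pushH2 (A := indRep U' (mu p)) (B := indRep U (mu p)) (indLE (mu p) hle) hπ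
      (globalLevels S))
    (comm583 p S hle hπ) f' hf'
  exact ⟨f, hf⟩

end Fermat.Agent.S55.GC.H583

end
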