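import Fermat.Agent.S55.Inv.H90H99

/-!
# S55 / layer GC (`Inv.GlobCokerSpec`, = GO4): FROZEN INTERFACE, part 1     (architect: helper53)

Target: `Inv.GlobCokerSpec p S` — for a normal `S`-level `U` acting trivially on `μ_p`
(`K = ℚ̄^U`), the image of `H²_S(Ind_U μ_p) → ∏_{v ∈ S} H²(G_v, Ind_U μ_p)` has codimension `≤ 1`.
Needed by route C′ (`PT.InvSpec`, TOP-glob-ind) and by S56 (BASE).

Route (blueprint `coord/S55-GC.md`, branch `origin/helper53`), independent of GD1:

* **GC-MONO** `MonoSpec`   : the statement for `U' ≤ U` implies the statement for `U`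
                             (push along `Ind_{U'} μ → Ind_U μ`; local `H²` is right exact).
* **GC-GOOD** `GoodSpec`   : every level contains a GOOD level `U`: there is a normal level
                             `U₁ ≤ U` of index `p` which is non-split at every `v ∈ S`
                             (`K = K₀(μ_{p^A})`, `L = K(μ_{p^{A+1}})`, `A` large).
* **GC-CORE** `CoreSpec`   : at a good level the two-family property of helper99 holds
                             (only the degree-`p` layer `L/K` is used: `|H²(ℤ/p, C_S(L))| ∣ p`).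

`globCoker_of : MonoSpec → GoodSpec → CoreSpec → Inv.GlobCokerSpec p S` is proved in `GC/Top.lean`.
No `sorry`; only definitions and `def … : Prop`.
-/

set_option autoImplicit false

noncomputable section

namespace Fermat.Agent.S55.GC

open Fermat.Agent.S55.PT Fermat.Agent.S55.Inv groupCohomology ExtCitation

variable (p : ℕ) [Fact p.Prime] (S : Finset Nat.Primes)

/-- The conclusion of `Inv.GlobCokerSpec` at one level `U`. -/
def GlobCokerAt (U : Subgroup GQ) : Prop :=
  ∃ f : ((v : ↥S) → (localLevels v.1).H2 (Rep.res (rl v.1) (indRep U (mu p)))) →ₗ[ZMod p]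
      ZMod p,
    LinearMap.ker f ≤ LinearMap.range (loc2 (hrl S) (indRep U (mu p)))

/-- `(U, U₁)` is a *good pair*: `U₁ ≤ U` are normal `S`-levels, `U` acts trivially on `μ_p`,
`[U : U₁] = p`, and no place above `S` splits in the layer: for every `v ∈ S` some element of the
local group at `v` lies in `U` but not in `U₁`.  (As `U`, `U₁` are normal in `G_ℚ` this covers all
places of `ℚ̄^U` above `v`.) -/
structure IsGoodPair (U U₁ : Subgroup GQ) : Prop where
  mem : U ∈ (globalLevels S).levels
  mem₁ : U₁ ∈ (globalLevels S).levels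
  normal : U.Normal
  normal₁ : U₁.Normal
  le : U₁ ≤ U
  index : U₁.relIndex U = p
  mu : ∀ s ∈ U, (mu p).ρ s = 1
  nonsplit : ∀ v : ↥S, ∃ σ : Gl v.1, rl v.1 σ ∈ U ∧ rl v.1 σ ∉ U₁

/-- **GC-MONO.**  The cokernel bound descends from a smaller level `U' ≤ U` to `U`.

Proof sketch.  `π = indLE : Ind_{U'} μ → Ind_U μ` is equivariant and onto; `pushH2 π` commutes
with `loc2` (`PT.resH2`/`pushH2` naturality) and is onto on every local factor by
`PT.Surj2LocSpec` (closed: `KL.A4.surj2Loc`).  If `ker f' ≤ range loc2'` then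
`W := (∏ pushH2 π)(ker f')` has codimension `≤ 1` and `W ≤ range loc2`; take `f` with kernel `W`
(or `f = 0` if `W = ⊤`). -/
def MonoSpec : Prop :=
  Surj2LocSpec p S →
  ∀ U ∈ (globalLevels S).levels, ∀ U' ∈ (globalLevels S).levels, U.Normal → U'.Normal → U' ≤ U →
    (∀ s ∈ U, (mu p).ρ s = 1) → GlobCokerAt p S U' → GlobCokerAt p S U

/-- **GC-GOOD.**  Good levels are cofinal (`p` odd, `p ∈ S`).

Proof sketch.  `χ_n : G_ℚ → (ℤ/p^n)ˣ` the cyclotomic characters, `U_n := U₀ ∩ ker χ_n` (normal
`S`-levels as `p ∈ S`; `U₀ ≤ U` normal, trivial on `μ_p`).  For `v ∈ S` the local field `K_v`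
contains only finitely many `p`-power roots of unity: `a_v := max {n | rl_v⁻¹(U₀) ≤ ker χ_n}`.
For `A ≥ max_v a_v`: `(U_A, U_{A+1})` is a good pair: the image of `rl_v⁻¹(U₀)` under `χ_{A+1}` is a
non-trivial subgroup of the cyclic `p`-group `1 + p(ℤ/p^{A+1})`, hence contains its subgroup of
order `p`, which is `ker((ℤ/p^{A+1})ˣ → (ℤ/p^A)ˣ)`. -/
def GoodSpec : Prop :=
  p ≠ 2 → pPrime p ∈ S →
  ∀ U ∈ (globalLevels S).levels, ∃ U' U₁ : Subgroup GQ, U' ≤ U ∧ IsGoodPair p S U' U₁

/-- **GC-CORE.**  At a good level the two-family property (`Inv/CokAbsH99.lean`) holds for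
`E = Ind_U 𝔼`, `B_v = Ind_U ℚ̄_vˣ`. -/
def CoreSpec : Prop :=
  p ≠ 2 → pPrime p ∈ S → ∀ U U₁ : Subgroup GQ, IsGoodPair p S U U₁ →
    H99.TwoFamily (ι := ↥S) (globalLevels S) (fun v => localLevels v.1) (fun v => rl v.1) p
      (K.indG U (K.sUnits S)) (fun v => K.ind (rl v.1) U (Tow.unitsQpbar v.1))
      (fun v => (K.indLocE v.1 S U).toAddMonoidHom)

end Fermat.Agent.S55.GC

end
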