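import Fermat.Agent.S55.GC.Spec

/-!
# S55 / layer GC: top assembly     (helper53)

`globCoker_of : MonoSpec → GoodSpec → CoreSpec → Inv.GlobCokerSpec p S`  (`p` odd, `p ∈ S`,
local `H²` right exact).  The passage from the two-family property at one level to the cokernel
bound at that level is helper99's `exists_functional_of_twoFamily`.
-/

set_option autoImplicit false
set_option linter.style.haveILetI false

noncomputable section

namespace Fermat.Agent.S55.GC

open Fermat.Agent.S55.PT Fermat.Agent.S55.Inv Fermat.Agent.S55.Inv.H99 Fermat.Agent.S55.KC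
  groupCohomology ExtCitation

variable (p : ℕ) [Fact p.Prime] (S : Finset Nat.Primes)

/-- The cokernel bound at one level from the two-family property at that level
(helper99's adapter, per level). -/
theorem globCokerAt_of_twoFamily (hpS : pPrime p ∈ S) (U : Subgroup GQ)
    (hU : U ∈ (globalLevels S).levels) (hUn : U.Normal)
    (h : TwoFamily (ι := ↥S) (globalLevels S) (fun v => localLevels v.1) (fun v => rl v.1) p
      (K.indG U (K.sUnits S)) (fun v => K.ind (rl v.1) U (Tow.unitsQpbar v.1))
      (fun v => (K.indLocE v.1 S U).toAddMonoidHom)) :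
    GlobCokerAt p S U := by
  haveI := hUn
  refine exists_functional_of_twoFamily (hrl S) (p := p) (M := indRep U (mu p))
    (E := K.indG U (K.sUnits S))
    (κ := indEmb p U (mu p) (K.sUnits S) (kappa0 p S))
    (B := fun v => K.ind (rl v.1) U (Tow.unitsQpbar v.1))
    (lam := fun v => (K.indLocE v.1 S U).toAddMonoidHom)
    (lcDivisible_ind_sUnits p S hpS (K.H724.kummer p S) U hU)
    (H323.isKummerEmb_ind_h323 p _ _ _ U (isKummerEmb_kappa0 p S))
    (fun v g e => indLocE_equivariant S v.1 U g e)
    (fun v => isSmooth_ind_res (rl v.1) U (localLevels v.1) (hrl S v U hU) _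
      (isSmooth_unitsQpbar v.1))
    (fun v => H323.isPDivisible_finsupp_h323 p (isPDivisible_unitsQpbar p v.1))
    (fun v => ?_) (fun v => semiLocalH90 S v U hU hUn) h
  have h := isKummerEmb_ind_res (rl v.1) U (mu p) (Tow.unitsQpbar v.1) (locMu p S v.1)
    (isKummerEmb_locMu p S v.1)
  rw [← indLocE_comp_indEmb] at h
  exact h

/-- **Layer GC, top.**  `Inv.GlobCokerSpec` from GC-MONO, GC-GOOD, GC-CORE. -/
theorem globCoker_of (hp2 : p ≠ 2) (hpS : pPrime p ∈ S) (h4 : Surj2LocSpec p S)
    (hmono : MonoSpec p S) (hgood : GoodSpec p S) (hcore : CoreSpec p S) :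
    GlobCokerSpec p S := by
  intro U hU hUn hUμ
  obtain ⟨U', U₁, hle, hg⟩ := hgood hp2 hpS U hU
  exact hmono h4 U hU U' hg.mem hUn hg.normal hle hUμ
    (globCokerAt_of_twoFamily p S hpS U' hg.mem hg.normal (hcore hp2 hpS U' U₁ hg))

end Fermat.Agent.S55.GC

end
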